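import Mathlib
import Fermat.Agent.S23.H143.PrimElt
import Fermat.Agent.S20.Bridge
import Fermat.Prelude.Thm_CongruenceSubgroup_one_mem_strictPeriods_Gamma0

set_option autoImplicit false

open UpperHalfPlane ModularForm CongruenceSubgroup Filter Topology Matrix.SpecialLinearGroup
  EisensteinSeries
open scoped MatrixGroups ModularForm Manifold Real

noncomputable section

namespace Fermat.Agent.S16.H428

open Fermat.Agent.S23.H143 Fermat.Agent.S20

/-- `p · E₂(p τ)`, as the weight-2 slash of `E₂` by `diag(p, 1)`. -/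
def F2 (p : ℕ) : ℍ → ℂ := E2 ∣[(2 : ℤ)] heckeDiagMatrix p

lemma F2_apply (p : ℕ) (hp : p ≠ 0) (τ : ℍ) : F2 p τ = p * E2 (heckeDiagMatrix p • τ) := by
  rw [F2, slash_heckeDiagMatrix_apply 2 hp]
  norm_num

/-- The constant `κ = 1 / (2 ζ(2))`. -/
def kappa : ℂ := 1 / (2 * riemannZeta 2)

lemma E2_slash (γ : SL(2, ℤ)) : E2 ∣[(2 : ℤ)] γ = E2 - kappa • D2 γ := E2_slash_action γ

lemma norm_denom_ge (h : SL(2, ℤ)) (hc : h 1 0 ≠ 0) (z : ℍ) (hz : 1 ≤ z.im) :
    1 ≤ ‖denom h z‖ := by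
  have h1 : |(denom h z).im| ≤ ‖denom h z‖ := Complex.abs_im_le_norm _
  have h2 : (denom h z).im = (h 1 0 : ℝ) * z.im := by
    simp [ModularGroup.denom_apply]
  rw [h2, abs_mul, abs_of_pos z.im_pos] at h1
  have h3 : (1 : ℝ) ≤ |(h 1 0 : ℝ)| := by
    have : (1 : ℤ) ≤ |h 1 0| := Int.one_le_abs hc
    exact_mod_cast this
  nlinarith [abs_nonneg (h 1 0 : ℝ)]

lemma D2_bounded (h : SL(2, ℤ)) : IsBoundedAtImInfty (D2 h) := by
  rw [isBoundedAtImInfty_iff]
  by_cases hc : h 1 0 = 0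
  · refine ⟨0, 0, fun z _ => ?_⟩
    simp [D2, hc]
  · refine ⟨2 * π * |(h 1 0 : ℝ)|, 1, fun z hz => ?_⟩
    have hd := norm_denom_ge h hc z hz
    simp only [D2, norm_div, norm_mul, Complex.norm_ofNat, Complex.norm_real,
      Complex.norm_I, mul_one, Real.norm_eq_abs, abs_of_pos Real.pi_pos]
    rw [div_le_iff₀ (by linarith)]
    have h5 : ‖((h 1 0 : ℤ) : ℂ)‖ = |(h 1 0 : ℝ)| := by
      rw [← Complex.ofReal_intCast, Complex.norm_real, Real.norm_eq_abs]
    rw [h5]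
    have : 0 ≤ 2 * π * |(h 1 0 : ℝ)| := by positivity
    nlinarith

lemma E2_slash_bounded (g : SL(2, ℤ)) : IsBoundedAtImInfty (E2 ∣[(2 : ℤ)] g) := by
  rw [E2_slash]
  exact (boundedAtImInftySubalgebra ℂ).sub_mem isBoundedAtImInfty_E2
    ((boundedAtImInftySubalgebra ℂ).smul_mem (D2_bounded g) kappa)

lemma F2_slash_bounded (p : ℕ) (hp : p ≠ 0) (g : SL(2, ℤ)) :
    IsBoundedAtImInfty (F2 p ∣[(2 : ℤ)] g) := by
  obtain ⟨h, b, a, d, had, -, -, hmat⟩ := primElt_hermite hp g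
  have h1 : F2 p ∣[(2 : ℤ)] g = (E2 ∣[(2 : ℤ)] h) ∣[(2 : ℤ)] upperTriangularGL a b d had := by
    rw [F2, ModularForm.SL_slash, ← SlashAction.slash_mul]
    rw [show (heckeDiagMatrix p * (g : GL (Fin 2) ℝ)) = mapGL ℝ h * upperTriangularGL a b d had
      from hmat]
    rw [SlashAction.slash_mul]
    rfl
  rw [h1]
  exact IsBoundedAtImInfty.slash 2 (by simp) (E2_slash_bounded h)


/-! ### Invariance under `Γ₀(p)` -/

lemma D2_apply' (γ : SL(2, ℤ)) (z : ℍ) :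
    D2 γ z = (2 * π * Complex.I * (γ 1 0 : ℂ)) / ((γ 1 0 : ℂ) * (z : ℂ) + (γ 1 1 : ℂ)) := by
  simp only [D2, ModularGroup.denom_apply]

lemma D2_slash_diag (p : ℕ) (hp : p ≠ 0) (γ γ' : SL(2, ℤ)) (h10 : γ 1 0 = γ' 1 0 * p)
    (h11 : γ 1 1 = γ' 1 1) : (D2 γ') ∣[(2 : ℤ)] heckeDiagMatrix p = D2 γ := by
  ext τ
  rw [slash_heckeDiagMatrix_apply 2 hp, D2_apply', D2_apply', coe_heckeDiagMatrix_smul hp]
  have hp' : (p : ℂ) ≠ 0 := by exact_mod_cast hp
  have hne : (γ 1 0 : ℂ) * (τ : ℂ) + (γ 1 1 : ℂ) ≠ 0 := by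
    have := denom_ne_zero γ τ
    rwa [ModularGroup.denom_apply] at this
  have e1 : ((γ 1 0 : ℤ) : ℂ) = γ' 1 0 * p := by
    have := congrArg (Int.cast : ℤ → ℂ) h10
    push_cast at this
    exact this
  have e2 : ((γ 1 1 : ℤ) : ℂ) = γ' 1 1 := congrArg (Int.cast : ℤ → ℂ) h11
  rw [e1, e2] at hne ⊢
  have hne' : (γ' 1 0 : ℂ) * ((p : ℂ) * τ) + γ' 1 1 ≠ 0 := by
    intro h0
    apply hne
    linear_combination h0
  rw [show ((2 : ℤ) - 1) = 1 by norm_num, zpow_one]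
  field_simp

lemma F2_slash_Gamma0 (p : ℕ) (hp : p ≠ 0) (γ : SL(2, ℤ)) (hγ : γ ∈ Gamma0 p) :
    F2 p ∣[(2 : ℤ)] γ = F2 p - kappa • D2 γ := by
  have hg' : ((γ 1 0 : ℤ) : ZMod p) = 0 := by simpa [Gamma0_mem] using hγ
  obtain ⟨e, he⟩ := (ZMod.intCast_zmod_eq_zero_iff_dvd _ _).mp hg'
  obtain ⟨γ', hmat⟩ := primElt_diag_mul_of_dvd hp γ e he
  have h10 : γ 1 0 = γ' 1 0 * p := by
    have := congrArg (fun M : GL (Fin 2) ℝ => M 1 0) hmat
    simp [hp, Matrix.mul_apply, Fin.sum_univ_two] at this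
    exact_mod_cast this
  have h11 : γ 1 1 = γ' 1 1 := by
    have := congrArg (fun M : GL (Fin 2) ℝ => M 1 1) hmat
    simp [hp, Matrix.mul_apply, Fin.sum_univ_two] at this
    exact_mod_cast this
  have h1 : F2 p ∣[(2 : ℤ)] γ = (E2 ∣[(2 : ℤ)] γ') ∣[(2 : ℤ)] heckeDiagMatrix p := by
    rw [F2, ModularForm.SL_slash, ← SlashAction.slash_mul]
    rw [show (heckeDiagMatrix p * (γ : GL (Fin 2) ℝ)) = mapGL ℝ γ' * heckeDiagMatrix p
      from hmat]
    rw [SlashAction.slash_mul]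
    rfl
  rw [h1, E2_slash, sub_eq_add_neg, SlashAction.add_slash, ← F2, SlashAction.neg_slash,
    ModularForm.smul_slash, D2_slash_diag p hp γ γ' h10 h11, ← sub_eq_add_neg]
  congr 1
  have : UpperHalfPlane.σ (heckeDiagMatrix p) = .refl ℝ ℂ := σ_heckeDiagMatrix p
  rw [this]
  rfl

/-- The Eisenstein series `e_p = (p E₂(p τ) - E₂(τ)) / 24` of weight 2 and level `Γ₀(p)`. -/
def eisFun (p : ℕ) : ℍ → ℂ := (1 / 24 : ℂ) • (F2 p - E2)

lemma eisFun_apply (p : ℕ) (hp : p ≠ 0) (τ : ℍ) :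
    eisFun p τ = ((p : ℂ) * E2 (heckeDiagMatrix p • τ) - E2 τ) / 24 := by
  simp only [eisFun, Pi.smul_apply, Pi.sub_apply, smul_eq_mul, F2_apply p hp]
  ring

theorem isMF_eisFun (p : ℕ) [NeZero p] : IsMF (Gamma0 p) 2 (eisFun p) := by
  have hp : p ≠ 0 := NeZero.ne p
  refine ⟨?_, fun γ hγ => ?_, fun g => ?_⟩
  · exact ((E2_mdifferentiable.slash 2 _).sub E2_mdifferentiable).const_smul _
  · rw [eisFun, ModularForm.SL_smul_slash, sub_eq_add_neg, SlashAction.add_slash,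
      SlashAction.neg_slash, F2_slash_Gamma0 p hp γ hγ, E2_slash]
    congr 1
    abel
  · rw [eisFun, ModularForm.SL_smul_slash, sub_eq_add_neg, SlashAction.add_slash,
      SlashAction.neg_slash, ← sub_eq_add_neg]
    exact (boundedAtImInftySubalgebra ℂ).smul_mem
      ((boundedAtImInftySubalgebra ℂ).sub_mem (F2_slash_bounded p hp g) (E2_slash_bounded g)) _


/-! ### The `q`-expansion -/

/-- The `q`-expansion coefficients of `E₂`. -/
def aE2 (m : ℕ) : ℂ := if m = 0 then 1 else -24 * (ArithmeticFunction.sigma 1 m : ℂ)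

/-- The `q`-expansion coefficients of `e_p`. -/
def cEis (p : ℕ) (n : ℕ) : ℂ := ((if p ∣ n then (p : ℂ) * aE2 (n / p) else 0) - aE2 n) / 24

lemma hasSum_E2 (τ : ℍ) :
    HasSum (fun m : ℕ => aE2 m • Function.Periodic.qParam 1 (τ : ℂ) ^ m) (E2 τ) := by
  simpa only [Function.Periodic.qParam, Complex.ofReal_one, div_one, aE2] using
    hasSum_qExpansion_E2 (z := τ)

lemma hasSum_eisFun (p : ℕ) [NeZero p] (τ : ℍ) :
    HasSum (fun n : ℕ => cEis p n • Function.Periodic.qParam 1 (τ : ℂ) ^ n) (eisFun p τ) := by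
  have hp : p ≠ 0 := NeZero.ne p
  have hpos : 0 < p := Nat.pos_of_ne_zero hp
  have hinj : Function.Injective (fun m : ℕ ↦ p * m) := fun a b h ↦
    Nat.eq_of_mul_eq_mul_left hpos h
  have h1 := hasSum_E2 (heckeDiagMatrix p • τ)
  rw [qParam_heckeDiagMatrix_smul] at h1
  -- reindexed sum for `E₂(pτ)`
  have h2 : HasSum (fun n : ℕ => (if p ∣ n then aE2 (n / p) else 0) •
      Function.Periodic.qParam 1 (τ : ℂ) ^ n) (E2 (heckeDiagMatrix p • τ)) := by
    rw [← hinj.hasSum_iff]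
    · have hfun : ((fun n : ℕ => (if p ∣ n then aE2 (n / p) else 0) •
          Function.Periodic.qParam 1 (τ : ℂ) ^ n) ∘ fun m : ℕ ↦ p * m) =
          fun m => aE2 m • (Function.Periodic.qParam 1 (τ : ℂ) ^ p) ^ m := by
        funext m
        simp only [Function.comp_apply, dvd_mul_right, if_true, Nat.mul_div_cancel_left m hpos,
          pow_mul]
      rw [hfun]
      exact h1
    · intro x hx
      have : ¬ p ∣ x := fun ⟨m, hm⟩ ↦ hx ⟨m, hm.symm⟩
      simp [this]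
  have h3 := ((h2.mul_left (p : ℂ)).sub (hasSum_E2 τ)).div_const 24
  rw [eisFun_apply p hp]
  have hfun : (fun n : ℕ => cEis p n • Function.Periodic.qParam 1 (τ : ℂ) ^ n) =
      fun i => ((p : ℂ) * (if p ∣ i then aE2 (i / p) else 0) •
        Function.Periodic.qParam 1 (τ : ℂ) ^ i -
          aE2 i • Function.Periodic.qParam 1 (τ : ℂ) ^ i) / 24 := by
    funext n
    simp only [cEis, smul_eq_mul]
    split_ifs <;> ring
  rw [hfun]
  exact h3


/-- `σ'(n)`: the sum of the divisors of `n` prime to `p`. -/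
def sigmaPrime (p n : ℕ) : ℕ := ∑ d ∈ n.divisors.filter (fun d => ¬ p ∣ d), d

lemma sigma_one_eq (p : ℕ) (hp : p ≠ 0) (n : ℕ) (hn : n ≠ 0) :
    ArithmeticFunction.sigma 1 n =
      sigmaPrime p n + if p ∣ n then p * ArithmeticFunction.sigma 1 (n / p) else 0 := by
  classical
  rw [ArithmeticFunction.sigma_one_apply, sigmaPrime,
    ← Finset.sum_filter_not_add_sum_filter _ (fun d => p ∣ d)]
  congr 1
  split_ifs with h
  · obtain ⟨m, rfl⟩ := h
    have hm : m ≠ 0 := fun h0 => hn (by rw [h0, mul_zero])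
    rw [Nat.mul_div_cancel_left m (Nat.pos_of_ne_zero hp), ArithmeticFunction.sigma_one_apply,
      Finset.mul_sum]
    refine Finset.sum_bij' (fun d _ => d / p) (fun d _ => p * d) ?_ ?_ ?_ ?_ ?_
    · intro d hd
      simp only [Finset.mem_filter, Nat.mem_divisors] at hd ⊢
      obtain ⟨⟨hd1, -⟩, e, rfl⟩ := hd
      rw [Nat.mul_div_cancel_left e (Nat.pos_of_ne_zero hp)]
      exact ⟨(Nat.mul_dvd_mul_iff_left (Nat.pos_of_ne_zero hp)).mp hd1, hm⟩
    · intro d hd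
      simp only [Finset.mem_filter, Nat.mem_divisors] at hd ⊢
      exact ⟨⟨Nat.mul_dvd_mul_left p hd.1, hn⟩, dvd_mul_right p d⟩
    · intro d hd
      simp only [Finset.mem_filter, Nat.mem_divisors] at hd
      obtain ⟨-, e, rfl⟩ := hd
      rw [Nat.mul_div_cancel_left e (Nat.pos_of_ne_zero hp)]
    · intro d _
      rw [Nat.mul_div_cancel_left d (Nat.pos_of_ne_zero hp)]
    · intro d hd
      simp only [Finset.mem_filter, Nat.mem_divisors] at hd
      obtain ⟨-, e, rfl⟩ := hd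
      rw [Nat.mul_div_cancel_left e (Nat.pos_of_ne_zero hp)]
  · refine Finset.sum_eq_zero fun d hd => ?_
    simp only [Finset.mem_filter, Nat.mem_divisors] at hd
    exact absurd (hd.2.trans hd.1.1) h

lemma cEis_zero (p : ℕ) : cEis p 0 = ((p : ℂ) - 1) / 24 := by
  simp [cEis, aE2]

lemma cEis_pos (p : ℕ) (hp : p ≠ 0) (n : ℕ) (hn : n ≠ 0) : cEis p n = (sigmaPrime p n : ℂ) := by
  have h := sigma_one_eq p hp n hn
  have hc : ((ArithmeticFunction.sigma 1 n : ℕ) : ℂ) = (sigmaPrime p n : ℂ) +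
      (if p ∣ n then (p : ℂ) * (ArithmeticFunction.sigma 1 (n / p) : ℂ) else 0) := by
    rw [h]
    push_cast
    split_ifs <;> simp
  simp only [cEis, aE2, hn, if_false]
  split_ifs with h1 h2
  · exfalso
    obtain ⟨m, rfl⟩ := h1
    rw [Nat.mul_div_cancel_left m (Nat.pos_of_ne_zero hp)] at h2
    exact hn (by rw [h2, mul_zero])
  · rw [if_pos h1] at hc
    rw [hc]
    ring
  · rw [if_neg h1] at hc
    rw [hc]
    ring

/-- **WP-E**: the weight-2 Eisenstein series of level `Γ₀(p)` with its `q`-expansion. -/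
theorem exists_eisenstein (p : ℕ) [NeZero p] :
    ∃ e : ModularForm (Gamma0 p : Subgroup (GL (Fin 2) ℝ)) 2,
      ⇑e = eisFun p ∧
      (qExpansion 1 e).coeff 0 = ((p : ℂ) - 1) / 24 ∧
      ∀ n : ℕ, n ≠ 0 → (qExpansion 1 e).coeff n = (sigmaPrime p n : ℂ) := by
  obtain ⟨e, he⟩ := (isMF_iff p 2 _).mp (isMF_eisFun p)
  have key : ∀ τ : ℍ, HasSum (fun m ↦ cEis p m • Function.Periodic.qParam 1 (τ : ℂ) ^ m)
      (e τ) := fun τ => by
    rw [he]
    exact hasSum_eisFun p τ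
  have hc : ∀ n, (qExpansion 1 e).coeff n = cEis p n := fun n =>
    (ModularFormClass.qExpansion_coeff_unique one_pos
      (CongruenceSubgroup.one_mem_strictPeriods_Gamma0 p) key n).symm
  refine ⟨e, he, ?_, fun n hn => ?_⟩
  · rw [hc, cEis_zero]
  · rw [hc, cEis_pos p (NeZero.ne p) n hn]

end Fermat.Agent.S16.H428
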