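import Mathlib
import Fermat.Agent.S16.Defs
import Fermat.Agent.S16.H428.Eis

/-!
# S16 WP E in the exact skeleton shape (helper428)

`exists_eis (p) [Fact p.Prime] : HasEis p`, where `HasEis` is spelled out exactly as in
`Skeleton.lean` (`MF` from `S20.Core`, `qCoeff` from the Prelude, `sigmaP` from `S16.Defs`).
-/

set_option autoImplicit false

noncomputable section

namespace Fermat.Agent.S16.H428

open UpperHalfPlane ModularForm CongruenceSubgroup MatrixGroups ModularFormClass EisensteinSeries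
open Fermat.Agent.S20 (MF SF)
open scoped Manifold

lemma sigmaPrime_eq_sigmaP (p n : ℕ) : sigmaPrime p n = sigmaP p n := rfl

lemma mem_MF_of_isMF {Γ : Subgroup SL(2, ℤ)} {k : ℤ} {f : ℍ → ℂ}
    (h : Fermat.Agent.S20.IsMF Γ k f) : f ∈ MF Γ k := h

lemma isMF_of_mem_MF {Γ : Subgroup SL(2, ℤ)} {k : ℤ} {f : ℍ → ℂ}
    (h : f ∈ MF Γ k) : Fermat.Agent.S20.IsMF Γ k f := h

/-- WP E, general nonzero level. -/
theorem exists_eis_of_neZero (p : ℕ) [NeZero p] :
    ∃ e ∈ MF (Gamma0 p) 2, qCoeff e 0 = ((p : ℂ) - 1) / 24 ∧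
      ∀ k : ℕ, 1 ≤ k → qCoeff e k = (sigmaP p k : ℂ) := by
  obtain ⟨e, he, h0, hk⟩ := exists_eisenstein p
  refine ⟨eisFun p, mem_MF_of_isMF (isMF_eisFun p), ?_, fun k hk1 => ?_⟩
  · rw [qCoeff, ← he]; exact h0
  · rw [qCoeff, ← he, hk k (by omega)]; rfl

/-- WP E, exact skeleton statement (`HasEis p` unfolded). -/
theorem exists_eis (p : ℕ) [Fact p.Prime] :
    ∃ e ∈ MF (Gamma0 p) 2, qCoeff e 0 = ((p : ℂ) - 1) / 24 ∧
      ∀ k : ℕ, 1 ≤ k → qCoeff e k = (sigmaP p k : ℂ) :=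
  haveI : NeZero p := ⟨(Fact.out : p.Prime).ne_zero⟩
  exists_eis_of_neZero p

end Fermat.Agent.S16.H428
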