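import Mathlib
import Fermat.Agent.S16.Defs
import Fermat.Agent.S20.C0_helper516
import Fermat.Agent.S23.H143.PrimElt

/-!
# S16 WP FR (helper428), part a: algebra of the Fricke operator `hat`

Exact skeleton shapes of `hat_apply`, `coe_fricke_smul`, `hat_add`, `hat_smul`, `hat_mul`,
`hat_pow`, `hat_hat`, `hat_levelOne`, `hat_Vp`.
-/

set_option autoImplicit false

noncomputable section

namespace Fermat.Agent.S16.H428

open UpperHalfPlane ModularForm CongruenceSubgroup MatrixGroups ModularFormClass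
open Fermat.Agent.S20 (MF SF)
open scoped Manifold

section FRa

variable (p : ℕ)

lemma val_frickeGL (hp : p ≠ 0) :
    ((frickeGL p : GL (Fin 2) ℝ) : Matrix (Fin 2) (Fin 2) ℝ) = !![0, -1; (p : ℝ), 0] := by
  simp [frickeGL, hp]

lemma det_frickeGL (hp : p ≠ 0) : ((frickeGL p).det : ℝ) = p := by
  rw [Matrix.GeneralLinearGroup.val_det_apply, val_frickeGL p hp, Matrix.det_fin_two_of]
  ring

lemma det_frickeGL_pos (hp : p ≠ 0) : 0 < ((frickeGL p).det : ℝ) := by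
  rw [det_frickeGL p hp]; exact_mod_cast Nat.pos_of_ne_zero hp

lemma σ_frickeGL (hp : p ≠ 0) : UpperHalfPlane.σ (frickeGL p) = .refl ℝ ℂ := by
  rw [UpperHalfPlane.σ, if_pos (det_frickeGL_pos p hp)]

lemma denom_frickeGL (hp : p ≠ 0) (z : ℍ) :
    UpperHalfPlane.denom (frickeGL p) z = (p : ℂ) * z := by
  simp [UpperHalfPlane.denom, val_frickeGL p hp]

lemma coe_frickeGL_smul (hp : p ≠ 0) (z : ℍ) :
    ((frickeGL p • z : ℍ) : ℂ) = -1 / ((p : ℂ) * z) := by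
  rw [UpperHalfPlane.coe_smul_of_det_pos (det_frickeGL_pos p hp)]
  simp [UpperHalfPlane.num, UpperHalfPlane.denom, val_frickeGL p hp]

lemma hat_apply_of_ne_zero (hp : p ≠ 0) (k : ℤ) (F : ℍ → ℂ) (z : ℍ) :
    hat p k F z = (z : ℂ) ^ (-k) * F (frickeGL p • z) := by
  have hp' : (p : ℂ) ≠ 0 := by exact_mod_cast hp
  have hz : (z : ℂ) ≠ 0 := z.ne_zero
  rw [hat, Pi.smul_apply, ModularForm.slash_apply, σ_frickeGL p hp, det_frickeGL p hp,
    denom_frickeGL p hp]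
  simp only [ContinuousAlgEquiv.refl_apply, Nat.abs_cast, Complex.ofReal_natCast, smul_eq_mul]
  rw [mul_zpow, zpow_sub₀ hp', zpow_one, zpow_neg, zpow_neg]
  field_simp

end FRa

section FR

variable (p : ℕ) [Fact p.Prime]

lemma prime_ne_zero' : p ≠ 0 := (Fact.out : p.Prime).ne_zero

theorem hat_apply (k : ℤ) (F : ℍ → ℂ) (z : ℍ) :
    hat p k F z = (z : ℂ) ^ (-k) * F (frickeGL p • z) :=
  hat_apply_of_ne_zero p (prime_ne_zero' p) k F z

theorem coe_fricke_smul (z : ℍ) : ((frickeGL p • z : ℍ) : ℂ) = -1 / ((p : ℂ) * z) :=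
  coe_frickeGL_smul p (prime_ne_zero' p) z

theorem hat_add (k : ℤ) (F G : ℍ → ℂ) : hat p k (F + G) = hat p k F + hat p k G := by
  funext z
  simp only [Pi.add_apply, hat_apply]
  ring

theorem hat_smul (k : ℤ) (c : ℂ) (F : ℍ → ℂ) : hat p k (c • F) = c • hat p k F := by
  funext z
  simp only [Pi.smul_apply, hat_apply, smul_eq_mul]
  ring

theorem hat_mul (k₁ k₂ : ℤ) (F₁ F₂ : ℍ → ℂ) :
    hat p (k₁ + k₂) (F₁ * F₂) = hat p k₁ F₁ * hat p k₂ F₂ := by
  funext z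
  have hz : (z : ℂ) ≠ 0 := z.ne_zero
  simp only [Pi.mul_apply, hat_apply]
  rw [neg_add, zpow_add₀ hz]
  ring

theorem hat_pow (k : ℤ) (n : ℕ) (F : ℍ → ℂ) : hat p (n * k) (F ^ n) = hat p k F ^ n := by
  funext z
  simp only [Pi.pow_apply, hat_apply]
  rw [mul_pow, ← zpow_natCast ((z : ℂ) ^ (-k)) n, ← zpow_mul]
  congr 2
  ring

lemma fricke_fricke_smul (z : ℍ) : frickeGL p • frickeGL p • z = z := by
  have hp' : (p : ℂ) ≠ 0 := by exact_mod_cast prime_ne_zero' p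
  have hz : (z : ℂ) ≠ 0 := z.ne_zero
  apply UpperHalfPlane.ext
  rw [coe_fricke_smul, coe_fricke_smul]
  field_simp

theorem hat_hat {k : ℤ} (hk : Even k) (F : ℍ → ℂ) :
    hat p k (hat p k F) = ((p : ℂ) ^ k) • F := by
  funext z
  have hp' : (p : ℂ) ≠ 0 := by exact_mod_cast prime_ne_zero' p
  have hz : (z : ℂ) ≠ 0 := z.ne_zero
  rw [hat_apply, hat_apply, fricke_fricke_smul, coe_fricke_smul, Pi.smul_apply, smul_eq_mul,
    ← mul_assoc, ← mul_zpow]
  congr 1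
  have : (z : ℂ) * (-1 / ((p : ℂ) * z)) = -((p : ℂ))⁻¹ := by field_simp
  rw [this, hk.neg.neg_zpow, inv_zpow, zpow_neg, inv_inv]

lemma coe_S_smul (z : ℍ) : ((ModularGroup.S • z : ℍ) : ℂ) = -1 / (z : ℂ) := by
  rw [UpperHalfPlane.modular_S_smul]
  change (-(z : ℂ))⁻¹ = -1 / (z : ℂ)
  rw [inv_neg, neg_div, one_div]

lemma levelOne_S_apply {k : ℤ} {H : ℍ → ℂ} (hH : H ∈ MF ⊤ k) (z : ℍ) :
    H (ModularGroup.S • z) = (z : ℂ) ^ k * H z := by
  have hz : (z : ℂ) ≠ 0 := z.ne_zero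
  have h := congrFun (hH.2.1 ModularGroup.S (Subgroup.mem_top _)) z
  rw [ModularForm.SL_slash_apply, ModularGroup.denom_S] at h
  rw [← h, mul_comm (H _), ← mul_assoc, ← zpow_add₀ hz, add_neg_cancel, zpow_zero, one_mul]

lemma fricke_smul_eq_S (z : ℍ) :
    frickeGL p • z = ModularGroup.S • (heckeDiagMatrix p • z) := by
  have hp' : (p : ℂ) ≠ 0 := by exact_mod_cast prime_ne_zero' p
  apply UpperHalfPlane.ext
  rw [coe_fricke_smul, coe_S_smul, coe_heckeDiagMatrix_smul (prime_ne_zero' p)]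

lemma diag_fricke_smul (z : ℍ) :
    heckeDiagMatrix p • (frickeGL p • z) = ModularGroup.S • z := by
  have hp' : (p : ℂ) ≠ 0 := by exact_mod_cast prime_ne_zero' p
  have hz : (z : ℂ) ≠ 0 := z.ne_zero
  apply UpperHalfPlane.ext
  rw [coe_heckeDiagMatrix_smul (prime_ne_zero' p), coe_fricke_smul, coe_S_smul]
  field_simp

theorem hat_levelOne {k : ℤ} {H : ℍ → ℂ} (hH : H ∈ MF ⊤ k) :
    hat p k H = ((p : ℂ) ^ k) • Vp p H := by
  funext z
  have hp' : (p : ℂ) ≠ 0 := by exact_mod_cast prime_ne_zero' p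
  have hz : (z : ℂ) ≠ 0 := z.ne_zero
  rw [hat_apply, fricke_smul_eq_S, levelOne_S_apply hH, coe_heckeDiagMatrix_smul (prime_ne_zero' p),
    Pi.smul_apply, smul_eq_mul, Vp, mul_zpow, zpow_neg]
  field_simp

theorem hat_Vp {k : ℤ} {H : ℍ → ℂ} (hH : H ∈ MF ⊤ k) : hat p k (Vp p H) = H := by
  funext z
  have hz : (z : ℂ) ≠ 0 := z.ne_zero
  rw [hat_apply, Vp, diag_fricke_smul, levelOne_S_apply hH, ← mul_assoc, ← zpow_add₀ hz,
    neg_add_cancel, zpow_zero, one_mul]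

end FR

end Fermat.Agent.S16.H428
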