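import Mathlib
import Fermat.Agent.S16.Defs
import Fermat.Agent.S20.C0_helper516
import Fermat.Agent.S23.H143.PrimElt
import Fermat.Agent.S16.H428.FRa

/-!
# S16 WP FR (helper428), part b: `hat_mem_MF`, `Vp_mem_MF` (exact skeleton shapes)
-/

set_option autoImplicit false

noncomputable section

namespace Fermat.Agent.S16.H428

open UpperHalfPlane ModularForm CongruenceSubgroup MatrixGroups ModularFormClass
open Matrix.SpecialLinearGroup
open Fermat.Agent.S20 (MF SF)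
open scoped Manifold

section FRb

variable (p : ℕ)

theorem frickeGL_mul_mapGL (hp : p ≠ 0) (g g' : SL(2, ℤ)) (h00 : g' 0 0 = g 1 1)
    (h01 : (p : ℤ) * g' 0 1 = - g 1 0) (h10 : g' 1 0 = -(p * g 0 1)) (h11 : g' 1 1 = g 0 0) :
    frickeGL p * mapGL ℝ g = mapGL ℝ g' * frickeGL p := by
  have e00 := congrArg (Int.cast : ℤ → ℝ) h00
  have e01 := congrArg (Int.cast : ℤ → ℝ) h01
  have e10 := congrArg (Int.cast : ℤ → ℝ) h10
  have e11 := congrArg (Int.cast : ℤ → ℝ) h11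
  push_cast at e00 e01 e10 e11
  ext i j
  fin_cases i <;> fin_cases j <;>
    simp [val_frickeGL p hp, Matrix.mul_apply, Fin.sum_univ_two]
  · linear_combination -e01
  · exact h00.symm
  · linear_combination -(p : ℝ) * e11
  · linear_combination e10

/-- `W γ = γ' W` for `γ ∈ Γ₀(p)`. -/
theorem frickeGL_mul_of_dvd (hp : p ≠ 0) (g : SL(2, ℤ)) (e : ℤ) (he : g 1 0 = p * e) :
    ∃ g' : SL(2, ℤ), g' ∈ Gamma0 p ∧ frickeGL p * mapGL ℝ g = mapGL ℝ g' * frickeGL p := by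
  have hdet := Fermat.Agent.S23.H143.primElt_det_eq g
  have hd : Matrix.det !![g 1 1, -e; -(p * g 0 1), g 0 0] = 1 := by
    rw [Matrix.det_fin_two_of]
    linear_combination hdet + (g 0 1) * he
  let g' : SL(2, ℤ) := ⟨!![g 1 1, -e; -(p * g 0 1), g 0 0], hd⟩
  refine ⟨g', Gamma0_mem.mpr (by simp [g']), frickeGL_mul_mapGL p hp g g' rfl ?_ rfl rfl⟩
  change (p : ℤ) * (-e) = - g 1 0
  rw [he]; ring

open ConjAct Pointwise in
theorem Gamma0_le_conj_fricke (hp : p ≠ 0) :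
    (Gamma0 p : Subgroup (GL (Fin 2) ℝ)) ≤
      toConjAct (frickeGL p)⁻¹ • (Gamma0 p : Subgroup (GL (Fin 2) ℝ)) := by
  rintro γ ⟨g, hg, rfl⟩
  rw [Subgroup.mem_pointwise_smul_iff_inv_smul_mem, ← map_inv, inv_inv, ConjAct.smul_def,
    ConjAct.ofConjAct_toConjAct]
  have hg' : ((g 1 0 : ℤ) : ZMod p) = 0 := by simpa [Gamma0_mem] using hg
  obtain ⟨e, he⟩ := (ZMod.intCast_zmod_eq_zero_iff_dvd _ _).mp hg'
  obtain ⟨g', hg'mem, hg'⟩ := frickeGL_mul_of_dvd p hp g e he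
  rw [show (mapGL ℝ : SL(2, ℤ) →* GL (Fin 2) ℝ) g = mapGL ℝ g from rfl, hg', mul_inv_cancel_right]
  exact ⟨g', hg'mem, rfl⟩

/-- The bundled Fricke translate `f ∣[k] W` as a modular form on `Γ₀(p)`. -/
def frickeMF [NeZero p] {k : ℤ} (f : ModularForm (Gamma0 p : Subgroup (GL (Fin 2) ℝ)) k) :
    ModularForm (Gamma0 p : Subgroup (GL (Fin 2) ℝ)) k :=
  Fermat.Agent.S23.H143.restrictMF (Gamma0_le_conj_fricke p (NeZero.ne p))
    (ModularForm.translate f (frickeGL p))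

theorem coe_frickeMF [NeZero p] {k : ℤ} (f : ModularForm (Gamma0 p : Subgroup (GL (Fin 2) ℝ)) k) :
    ⇑(frickeMF p f) = (⇑f) ∣[k] frickeGL p := rfl

theorem hat_mem_MF_of_neZero [NeZero p] {k : ℤ} {F : ℍ → ℂ} (hF : F ∈ MF (Gamma0 p) k) :
    hat p k F ∈ MF (Gamma0 p) k := by
  obtain ⟨f, rfl⟩ := Fermat.Agent.S20.C0h516.mem_MF_iff_exists.mp hF
  have h := Fermat.Agent.S20.C0h516.coe_mem_MF (frickeMF p f)
  rw [coe_frickeMF] at h
  exact (MF (Gamma0 p) k).smul_mem (p : ℂ) h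

theorem hat_mem_SF_of_neZero [NeZero p] {k : ℤ} {F : ℍ → ℂ} (hF : F ∈ SF (Gamma0 p) k) :
    hat p k F ∈ SF (Gamma0 p) k := by
  obtain ⟨f, rfl⟩ := Fermat.Agent.S20.C0h516.mem_SF_iff_exists.mp hF
  have hle := Gamma0_le_conj_fricke p (NeZero.ne p)
  let g : CuspForm (Gamma0 p : Subgroup (GL (Fin 2) ℝ)) k :=
    { toFun := (⇑f) ∣[k] frickeGL p
      slash_action_eq' := fun γ hγ =>
        (CuspForm.translate f (frickeGL p)).slash_action_eq' γ (hle hγ)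
      holo' := (CuspForm.translate f (frickeGL p)).holo'
      zero_at_cusps' := fun hc =>
        (CuspForm.translate f (frickeGL p)).zero_at_cusps' (hc.mono hle) }
  have h := Fermat.Agent.S20.C0h516.coe_mem_SF g
  exact (SF (Gamma0 p) k).smul_mem (p : ℂ) h

lemma MF_top_le (Γ : Subgroup SL(2, ℤ)) (k : ℤ) : MF ⊤ k ≤ MF Γ k :=
  fun _ hf => ⟨hf.1, fun γ _ => hf.2.1 γ (Subgroup.mem_top _), hf.2.2⟩

lemma SF_top_le (Γ : Subgroup SL(2, ℤ)) (k : ℤ) : SF ⊤ k ≤ SF Γ k :=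
  fun _ hf => ⟨hf.1, fun γ _ => hf.2.1 γ (Subgroup.mem_top _), hf.2.2⟩

end FRb

section FR

variable (p : ℕ) [Fact p.Prime]

instance neZero_of_fact_prime : NeZero p := ⟨(Fact.out : p.Prime).ne_zero⟩

theorem hat_mem_MF {k : ℤ} {F : ℍ → ℂ} (hF : F ∈ MF (Gamma0 p) k) :
    hat p k F ∈ MF (Gamma0 p) k :=
  hat_mem_MF_of_neZero p hF

theorem hat_mem_SF {k : ℤ} {F : ℍ → ℂ} (hF : F ∈ SF (Gamma0 p) k) :
    hat p k F ∈ SF (Gamma0 p) k :=
  hat_mem_SF_of_neZero p hF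

theorem Vp_eq_smul_hat {k : ℤ} {H : ℍ → ℂ} (hH : H ∈ MF ⊤ k) :
    Vp p H = ((p : ℂ) ^ (-k)) • hat p k H := by
  have hp' : (p : ℂ) ≠ 0 := by exact_mod_cast prime_ne_zero' p
  rw [hat_levelOne p hH, smul_smul, ← zpow_add₀ hp', neg_add_cancel, zpow_zero, one_smul]

theorem Vp_mem_MF {k : ℤ} {H : ℍ → ℂ} (hH : H ∈ MF ⊤ k) : Vp p H ∈ MF (Gamma0 p) k := by
  rw [Vp_eq_smul_hat p hH]
  exact (MF (Gamma0 p) k).smul_mem _ (hat_mem_MF p (MF_top_le _ k hH))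

theorem Vp_mem_SF {k : ℤ} {H : ℍ → ℂ} (hH : H ∈ SF ⊤ k) : Vp p H ∈ SF (Gamma0 p) k := by
  rw [Vp_eq_smul_hat p (Fermat.Agent.S20.SF_le_MF _ k hH)]
  exact (SF (Gamma0 p) k).smul_mem _ (hat_mem_SF p (SF_top_le _ k hH))

end FR

end Fermat.Agent.S16.H428
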