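import Mathlib
import Fermat.Agent.S16.Defs
import Fermat.Agent.S20.C0_helper516
import Fermat.Agent.S16.H428.FRa
import Fermat.Agent.S16.H428.FRb

/-!
# S16 WP FR (helper428), part c: the trace to level one (exact skeleton shapes)

`tr_eq_sum`, `tr_mem_MF`, `tr_mem_SF`, `tr_mul_levelOne`, `tr_levelOne`.
-/

set_option autoImplicit false
set_option linter.unusedSectionVars false

noncomputable section

namespace Fermat.Agent.S16.H428

open UpperHalfPlane ModularForm CongruenceSubgroup MatrixGroups ModularFormClass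
open Matrix.SpecialLinearGroup
open Fermat.Agent.S20 (MF SF)
open scoped Manifold

local notation "Sm" => ModularGroup.S
local notation "Tm" => ModularGroup.T

lemma coe_S_mul_T_pow (j : ℕ) :
    ((Sm * Tm ^ j : SL(2, ℤ)) : Matrix (Fin 2) (Fin 2) ℤ) = !![0, -1; 1, (j : ℤ)] := by
  rw [← zpow_natCast, Matrix.SpecialLinearGroup.coe_mul, ModularGroup.coe_S,
    ModularGroup.coe_T_zpow]
  ext a b
  fin_cases a <;> fin_cases b <;> simp [Matrix.mul_apply, Fin.sum_univ_two]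

lemma S_mul_T_pow_apply_10 (j : ℕ) : (Sm * Tm ^ j : SL(2, ℤ)) 1 0 = 1 := by
  have := congrFun (congrFun (coe_S_mul_T_pow j) 1) 0
  simpa using this

lemma S_mul_T_pow_apply_11 (j : ℕ) : (Sm * Tm ^ j : SL(2, ℤ)) 1 1 = j := by
  have := congrFun (congrFun (coe_S_mul_T_pow j) 1) 1
  simpa using this

lemma S_mul_T_pow_apply_00 (j : ℕ) : (Sm * Tm ^ j : SL(2, ℤ)) 0 0 = 0 := by
  have := congrFun (congrFun (coe_S_mul_T_pow j) 0) 0
  simpa using this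

lemma S_mul_T_pow_apply_01 (j : ℕ) : (Sm * Tm ^ j : SL(2, ℤ)) 0 1 = -1 := by
  have := congrFun (congrFun (coe_S_mul_T_pow j) 0) 1
  simpa using this

lemma coe_S_mul_T_pow_smul (j : ℕ) (z : ℍ) :
    (((Sm * Tm ^ j : SL(2, ℤ)) • z : ℍ) : ℂ) = -1 / ((z : ℂ) + j) := by
  rw [mul_smul, coe_S_smul, ← zpow_natCast, ModularGroup.coe_T_zpow_smul_eq]
  simp

section FRc

variable (p : ℕ) [Fact p.Prime]

lemma S_T_pow_smul_eq (j : ℕ) (z : ℍ) :
    (Sm * Tm ^ j : SL(2, ℤ)) • z = frickeGL p • (heckeMatrix p j • z) := by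
  have hp' : (p : ℂ) ≠ 0 := by exact_mod_cast prime_ne_zero' p
  apply UpperHalfPlane.ext
  rw [coe_S_mul_T_pow_smul, coe_fricke_smul, coe_heckeMatrix_smul (prime_ne_zero' p)]
  congr 1
  field_simp

lemma slash_S_T_pow_apply (k : ℤ) (F : ℍ → ℂ) (j : ℕ) (z : ℍ) :
    (F ∣[k] (Sm * Tm ^ j : SL(2, ℤ))) z =
      ((z : ℂ) + j) ^ (-k) * F (frickeGL p • (heckeMatrix p j • z)) := by
  rw [ModularForm.SL_slash_apply, ModularGroup.denom_apply, S_mul_T_pow_apply_10,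
    S_mul_T_pow_apply_11, S_T_pow_smul_eq p j z, mul_comm]
  simp

theorem hat_slash_heckeMatrix (k : ℤ) (F : ℍ → ℂ) (j : ℕ) :
    (hat p k F) ∣[k] heckeMatrix p j = ((p : ℂ) ^ (k - 1)) • (F ∣[k] (Sm * Tm ^ j : SL(2, ℤ))) := by
  funext z
  have hp' : (p : ℂ) ≠ 0 := by exact_mod_cast prime_ne_zero' p
  rw [slash_heckeMatrix_apply k (prime_ne_zero' p), hat_apply, Pi.smul_apply, smul_eq_mul,
    slash_S_T_pow_apply p, coe_heckeMatrix_smul (prime_ne_zero' p), div_zpow, zpow_sub₀ hp',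
    zpow_one, zpow_neg, zpow_neg]
  field_simp

/-- `tr F = F + ∑_{j<p} F ∣[k] (S T^j)`. -/
theorem tr_eq_sum (k : ℤ) (F : ℍ → ℂ) :
    tr p k F = F + ∑ j ∈ Finset.range p, F ∣[k] (ModularGroup.S * ModularGroup.T ^ j) := by
  have hp' : (p : ℂ) ≠ 0 := by exact_mod_cast prime_ne_zero' p
  rw [tr, heckeU_def, Finset.smul_sum]
  congr 1
  refine Finset.sum_congr rfl fun j _ => ?_
  rw [hat_slash_heckeMatrix, smul_smul, ← zpow_add₀ hp']
  simp

/-! ### Invariance of the trace -/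

variable {p}

lemma slash_eq_of_mul_inv_mem {k : ℤ} {F : ℍ → ℂ} (hF : ∀ γ ∈ Gamma0 p, F ∣[k] γ = F)
    (γ δ : SL(2, ℤ)) (h : γ * δ⁻¹ ∈ Gamma0 p) : F ∣[k] γ = F ∣[k] δ := by
  have e : γ = (γ * δ⁻¹) * δ := by group
  conv_lhs => rw [e, SlashAction.slash_mul, hF _ h]

lemma mul_inv_S_T_pow_apply_10 (γ : SL(2, ℤ)) (j : ℕ) :
    (γ * (Sm * Tm ^ j : SL(2, ℤ))⁻¹) 1 0 = γ 1 0 * j - γ 1 1 := by
  rw [Matrix.SpecialLinearGroup.coe_mul, Matrix.SpecialLinearGroup.coe_inv,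
    Matrix.adjugate_fin_two, Matrix.mul_apply, Fin.sum_univ_two]
  simp [S_mul_T_pow_apply_10, S_mul_T_pow_apply_11]
  ring

lemma mem_Gamma0_mul_inv_S_T_pow (γ : SL(2, ℤ)) (j : ℕ)
    (h : ((γ 1 0 : ℤ) : ZMod p) * (j : ZMod p) = ((γ 1 1 : ℤ) : ZMod p)) :
    γ * (Sm * Tm ^ j : SL(2, ℤ))⁻¹ ∈ Gamma0 p := by
  rw [Gamma0_mem, mul_inv_S_T_pow_apply_10]
  push_cast
  rw [h, sub_self]

variable (p) in
/-- The conjugates `F ∣ S T^x`, indexed by `x : ZMod p`. -/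
def conjST (k : ℤ) (F : ℍ → ℂ) (x : ZMod p) : ℍ → ℂ := F ∣[k] (Sm * Tm ^ x.val : SL(2, ℤ))

lemma slash_eq_conjST {k : ℤ} {F : ℍ → ℂ} (hF : ∀ γ ∈ Gamma0 p, F ∣[k] γ = F)
    (γ : SL(2, ℤ)) (x : ZMod p)
    (h : ((γ 1 0 : ℤ) : ZMod p) * x = ((γ 1 1 : ℤ) : ZMod p)) :
    F ∣[k] γ = conjST p k F x := by
  refine slash_eq_of_mul_inv_mem hF γ _ (mem_Gamma0_mul_inv_S_T_pow γ _ ?_)
  rw [ZMod.natCast_zmod_val, h]

lemma slash_eq_self_of_dvd {k : ℤ} {F : ℍ → ℂ} (hF : ∀ γ ∈ Gamma0 p, F ∣[k] γ = F)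
    (γ : SL(2, ℤ)) (h : ((γ 1 0 : ℤ) : ZMod p) = 0) : F ∣[k] γ = F :=
  hF γ (Gamma0_mem.mpr h)

variable (p) in
lemma sum_range_eq_sum_conjST (k : ℤ) (F : ℍ → ℂ) :
    ∑ j ∈ Finset.range p, F ∣[k] (Sm * Tm ^ j : SL(2, ℤ)) = ∑ x : ZMod p, conjST p k F x := by
  refine Finset.sum_nbij' (fun j => (j : ZMod p)) (fun x => x.val) ?_ ?_ ?_ ?_ ?_
  · intro j _; exact Finset.mem_univ _
  · intro x _; exact Finset.mem_range.mpr (ZMod.val_lt x)
  · intro j hj; exact ZMod.val_natCast_of_lt (Finset.mem_range.mp hj)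
  · intro x _; exact ZMod.natCast_zmod_val x
  · intro j hj
    rw [conjST, ZMod.val_natCast_of_lt (Finset.mem_range.mp hj)]

variable (p) in
theorem tr_eq_sum_conjST (k : ℤ) (F : ℍ → ℂ) :
    tr p k F = F + ∑ x : ZMod p, conjST p k F x := by
  rw [tr_eq_sum, sum_range_eq_sum_conjST]

lemma conjST_slash_T {k : ℤ} {F : ℍ → ℂ} (hF : ∀ γ ∈ Gamma0 p, F ∣[k] γ = F) (x : ZMod p) :
    (conjST p k F x) ∣[k] Tm = conjST p k F (x + 1) := by
  rw [conjST, ← SlashAction.slash_mul, mul_assoc, ← pow_succ]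
  refine slash_eq_conjST hF _ _ ?_
  rw [S_mul_T_pow_apply_10, S_mul_T_pow_apply_11]
  push_cast
  rw [ZMod.natCast_zmod_val, one_mul]

lemma S_mul_T_pow_mul_S_apply_10 (j : ℕ) : ((Sm * Tm ^ j : SL(2, ℤ)) * Sm) 1 0 = j := by
  rw [Matrix.SpecialLinearGroup.coe_mul, Matrix.mul_apply, Fin.sum_univ_two,
    S_mul_T_pow_apply_10, S_mul_T_pow_apply_11, ModularGroup.coe_S]
  simp

lemma S_mul_T_pow_mul_S_apply_11 (j : ℕ) : ((Sm * Tm ^ j : SL(2, ℤ)) * Sm) 1 1 = -1 := by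
  rw [Matrix.SpecialLinearGroup.coe_mul, Matrix.mul_apply, Fin.sum_univ_two,
    S_mul_T_pow_apply_10, S_mul_T_pow_apply_11, ModularGroup.coe_S]
  simp

lemma conjST_slash_S_zero {k : ℤ} {F : ℍ → ℂ} (hF : ∀ γ ∈ Gamma0 p, F ∣[k] γ = F) :
    (conjST p k F 0) ∣[k] Sm = F := by
  rw [conjST, ← SlashAction.slash_mul]
  refine slash_eq_self_of_dvd hF _ ?_
  rw [S_mul_T_pow_mul_S_apply_10]
  simp

lemma conjST_slash_S {k : ℤ} {F : ℍ → ℂ} (hF : ∀ γ ∈ Gamma0 p, F ∣[k] γ = F) (x : ZMod p)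
    (hx : x ≠ 0) : (conjST p k F x) ∣[k] Sm = conjST p k F (-x⁻¹) := by
  rw [conjST, ← SlashAction.slash_mul]
  refine slash_eq_conjST hF _ _ ?_
  rw [S_mul_T_pow_mul_S_apply_10, S_mul_T_pow_mul_S_apply_11]
  push_cast
  rw [ZMod.natCast_zmod_val, mul_neg, mul_inv_cancel₀ hx]

lemma slash_S_eq_conjST_zero {k : ℤ} {F : ℍ → ℂ} : F ∣[k] Sm = conjST p k F 0 := by
  rw [conjST, ZMod.val_zero, pow_zero, mul_one]

lemma sum_conjST_neg_inv (k : ℤ) (F : ℍ → ℂ) :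
    ∑ x ∈ (Finset.univ : Finset (ZMod p)).erase 0, conjST p k F (-x⁻¹) =
      ∑ x ∈ (Finset.univ : Finset (ZMod p)).erase 0, conjST p k F x := by
  refine Finset.sum_nbij' (fun x => -x⁻¹) (fun x => -x⁻¹) ?_ ?_ ?_ ?_ ?_
  · intro x hx
    have hx0 : x ≠ 0 := Finset.ne_of_mem_erase hx
    exact Finset.mem_erase.mpr ⟨neg_ne_zero.mpr (inv_ne_zero hx0), Finset.mem_univ _⟩
  · intro x hx
    have hx0 : x ≠ 0 := Finset.ne_of_mem_erase hx
    exact Finset.mem_erase.mpr ⟨neg_ne_zero.mpr (inv_ne_zero hx0), Finset.mem_univ _⟩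
  · intro x _; simp [inv_neg]
  · intro x _; simp [inv_neg]
  · intro x _; rfl

theorem tr_slash_T {k : ℤ} {F : ℍ → ℂ} (hF : ∀ γ ∈ Gamma0 p, F ∣[k] γ = F) :
    (tr p k F) ∣[k] Tm = tr p k F := by
  rw [tr_eq_sum_conjST, SlashAction.add_slash, SlashAction.sum_slash]
  congr 1
  · refine slash_eq_self_of_dvd hF _ ?_
    simp [ModularGroup.coe_T]
  · simp_rw [conjST_slash_T hF]
    exact Equiv.sum_comp (Equiv.addRight (1 : ZMod p)) (conjST p k F)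

theorem tr_slash_S {k : ℤ} {F : ℍ → ℂ} (hF : ∀ γ ∈ Gamma0 p, F ∣[k] γ = F) :
    (tr p k F) ∣[k] Sm = tr p k F := by
  rw [tr_eq_sum_conjST, SlashAction.add_slash, SlashAction.sum_slash,
    ← Finset.add_sum_erase _ _ (Finset.mem_univ (0 : ZMod p)),
    ← Finset.add_sum_erase _ (conjST p k F) (Finset.mem_univ (0 : ZMod p)),
    conjST_slash_S_zero hF, slash_S_eq_conjST_zero (p := p),
    Finset.sum_congr rfl (fun x hx => conjST_slash_S hF x (Finset.ne_of_mem_erase hx)),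
    sum_conjST_neg_inv]
  abel

theorem tr_slash {k : ℤ} {F : ℍ → ℂ} (hF : ∀ γ ∈ Gamma0 p, F ∣[k] γ = F) (γ : SL(2, ℤ)) :
    (tr p k F) ∣[k] γ = tr p k F := by
  have hγ : γ ∈ Subgroup.closure ({Sm, Tm} : Set SL(2, ℤ)) := by
    rw [SpecialLinearGroup.SL2Z_generators]; exact Subgroup.mem_top _
  induction hγ using Subgroup.closure_induction with
  | mem x hx =>
    rcases hx with rfl | rfl
    · exact tr_slash_S hF
    · exact tr_slash_T hF
  | one => exact SlashAction.slash_one _ _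
  | mul x y _ _ hx hy => rw [SlashAction.slash_mul, hx, hy]
  | inv x _ hx =>
    conv_lhs => rw [← hx, ← SlashAction.slash_mul, mul_inv_cancel, SlashAction.slash_one]

/-! ### Membership -/

variable (p)

lemma isBounded_sum {ι : Type} (s : Finset ι) (f : ι → ℍ → ℂ)
    (h : ∀ i ∈ s, IsBoundedAtImInfty (f i)) : IsBoundedAtImInfty (∑ i ∈ s, f i) := by
  classical
  induction s using Finset.induction_on with
  | empty => simpa using (zero_form_isBoundedAtImInfty : IsBoundedAtImInfty (0 : ℍ → ℂ))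
  | insert a s ha ih =>
    rw [Finset.sum_insert ha]
    exact Filter.BoundedAtFilter.add (h a (Finset.mem_insert_self a s))
      (ih fun i hi => h i (Finset.mem_insert_of_mem hi))

lemma isZero_sum {ι : Type} (s : Finset ι) (f : ι → ℍ → ℂ)
    (h : ∀ i ∈ s, IsZeroAtImInfty (f i)) : IsZeroAtImInfty (∑ i ∈ s, f i) := by
  classical
  induction s using Finset.induction_on with
  | empty =>
    rw [Finset.sum_empty]
    exact Filter.zero_zeroAtFilter atImInfty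
  | insert a s ha ih =>
    rw [Finset.sum_insert ha]
    exact Filter.ZeroAtFilter.add (h a (Finset.mem_insert_self a s))
      (ih fun i hi => h i (Finset.mem_insert_of_mem hi))

theorem tr_mem_MF {k : ℤ} {F : ℍ → ℂ} (hF : F ∈ MF (Gamma0 p) k) : tr p k F ∈ MF ⊤ k := by
  refine ⟨?_, fun γ _ => tr_slash hF.2.1 γ, fun γ => ?_⟩
  · rw [tr_eq_sum]
    exact hF.1.add (MDifferentiable.sum fun j _ => hF.1.slash k _)
  · rw [tr_slash hF.2.1 γ, tr_eq_sum]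
    refine Filter.BoundedAtFilter.add ?_ (isBounded_sum _ _ fun j _ => hF.2.2 _)
    have := hF.2.2 1
    rwa [SlashAction.slash_one] at this

theorem tr_mem_SF {k : ℤ} {F : ℍ → ℂ} (hF : F ∈ SF (Gamma0 p) k) : tr p k F ∈ SF ⊤ k := by
  refine ⟨?_, fun γ _ => tr_slash hF.2.1 γ, fun γ => ?_⟩
  · rw [tr_eq_sum]
    exact hF.1.add (MDifferentiable.sum fun j _ => hF.1.slash k _)
  · rw [tr_slash hF.2.1 γ, tr_eq_sum]
    refine Filter.ZeroAtFilter.add ?_ (isZero_sum _ _ fun j _ => hF.2.2 _)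
    have := hF.2.2 1
    rwa [SlashAction.slash_one] at this

theorem tr_mul_levelOne {a : ℤ} (k : ℤ) {H : ℍ → ℂ} (hH : H ∈ MF ⊤ a) (F : ℍ → ℂ) :
    tr p (a + k) (H * F) = H * tr p k F := by
  rw [tr_eq_sum, tr_eq_sum, mul_add, Finset.mul_sum]
  congr 1
  refine Finset.sum_congr rfl fun j _ => ?_
  rw [ModularForm.mul_slash_SL2, hH.2.1 _ (Subgroup.mem_top _)]

theorem tr_levelOne {k : ℤ} {H : ℍ → ℂ} (hH : H ∈ MF ⊤ k) :
    tr p k H = ((p : ℂ) + 1) • H := by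
  rw [tr_eq_sum, Finset.sum_congr rfl fun j _ => hH.2.1 _ (Subgroup.mem_top _),
    Finset.sum_const, Finset.card_range, add_smul, one_smul, add_comm,
    Nat.cast_smul_eq_nsmul]

end FRc

end Fermat.Agent.S16.H428
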