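import Mathlib
import Fermat.Prelude.Thm_ModularFormClass_qCoeff_heckeU
import Fermat.Prelude.Thm_CongruenceSubgroup_one_mem_strictPeriods_Gamma0
import Fermat.Agent.S16.Defs
import Fermat.Agent.S16.Interface
import Fermat.Agent.S20.C0_helper516
import Fermat.Agent.S16.H556.Basic
import Fermat.Agent.S16.H428.FRa
import Fermat.Agent.S16.H428.FRb
import Fermat.Agent.S16.H428.FRc

/-!
# S16 WP FR (helper428), part d: weight 2 and the cusp criterion (exact skeleton shapes)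

`hat_two`, `heckeU_two_mem`, `heckeU_two_sq`, `mem_SF_of_qCoeff_zero`, `cusp_crit`
(and `MF_top_two`, needed on the way).
-/

set_option autoImplicit false
set_option linter.unusedSectionVars false

noncomputable section

namespace Fermat.Agent.S16.H428

open UpperHalfPlane ModularForm CongruenceSubgroup MatrixGroups ModularFormClass Filter Topology
open Matrix.SpecialLinearGroup
open Fermat.Agent.S20 (MF SF)
open scoped Manifold

local notation "Sm" => ModularGroup.S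
local notation "Tm" => ModularGroup.T

/-- `M₂(SL₂ℤ) = 0`. -/
theorem MF_top_two : MF (⊤ : Subgroup SL(2, ℤ)) 2 = ⊥ := by
  rw [eq_bot_iff]
  intro H hH
  obtain ⟨g, rfl⟩ := Fermat.Agent.S20.C0h516.mem_MF_top_iff_exists.mp hH
  have hg : g = 0 := (rank_zero_iff_forall_zero.mp levelOne_weight_two_rank_zero) g
  rw [hg]
  exact (Submodule.mem_bot ℂ).mpr rfl

section FRd

variable (p : ℕ) [Fact p.Prime]

theorem tr_two_eq_zero {G : ℍ → ℂ} (hG : G ∈ MF (Gamma0 p) 2) : tr p 2 G = 0 := by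
  have h := tr_mem_MF p hG
  rw [MF_top_two] at h
  exact (Submodule.mem_bot ℂ).mp h

/-- Weight 2: `G = -p⁻¹ U_p (G^)`. -/
theorem eq_neg_heckeU_hat {G : ℍ → ℂ} (hG : G ∈ MF (Gamma0 p) 2) :
    G = (-(p : ℂ)⁻¹) • heckeU 2 p (hat p 2 G) := by
  have h := tr_two_eq_zero p hG
  rw [tr] at h
  have h1 : (1 - 2 : ℤ) = -1 := by norm_num
  rw [h1, zpow_neg_one] at h
  exact (eq_neg_of_add_eq_zero_left h).trans (_root_.neg_smul _ _).symm

/-- Weight 2: `M₂(SL₂ℤ) = 0` forces `G^ = -p U_p G`. -/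
theorem hat_two {G : ℍ → ℂ} (hG : G ∈ MF (Gamma0 p) 2) :
    hat p 2 G = (-(p : ℂ)) • heckeU 2 p G := by
  have hp' : (p : ℂ) ≠ 0 := by exact_mod_cast prime_ne_zero' p
  have h := eq_neg_heckeU_hat p (hat_mem_MF p hG)
  rw [hat_hat p (by decide : Even (2 : ℤ)), heckeU_smul, smul_smul] at h
  rw [h]
  congr 1
  rw [zpow_ofNat]
  field_simp

theorem heckeU_two_eq {G : ℍ → ℂ} (hG : G ∈ MF (Gamma0 p) 2) :
    heckeU 2 p G = (-(p : ℂ)⁻¹) • hat p 2 G := by
  have hp' : (p : ℂ) ≠ 0 := by exact_mod_cast prime_ne_zero' p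
  rw [hat_two p hG, smul_smul]
  have : -(p : ℂ)⁻¹ * -(p : ℂ) = 1 := by field_simp
  rw [this, one_smul]

theorem heckeU_two_mem {G : ℍ → ℂ} (hG : G ∈ MF (Gamma0 p) 2) :
    heckeU 2 p G ∈ MF (Gamma0 p) 2 := by
  rw [heckeU_two_eq p hG]
  exact (MF (Gamma0 p) 2).smul_mem _ (hat_mem_MF p hG)

theorem heckeU_two_sq {G : ℍ → ℂ} (hG : G ∈ MF (Gamma0 p) 2) :
    heckeU 2 p (heckeU 2 p G) = G := by
  have hp' : (p : ℂ) ≠ 0 := by exact_mod_cast prime_ne_zero' p
  have h := eq_neg_heckeU_hat p hG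
  rw [hat_two p hG, heckeU_smul, smul_smul] at h
  have : -(p : ℂ)⁻¹ * -(p : ℂ) = 1 := by field_simp
  rw [this, one_smul] at h
  exact h.symm

/-! ### The cusp criterion -/

lemma one_mem_strictPeriods_Gamma0' :
    (1 : ℝ) ∈ (Gamma0 p : Subgroup (GL (Fin 2) ℝ)).strictPeriods := by
  simp [CongruenceSubgroup.strictPeriods_Gamma0]

theorem tendsto_qCoeff_zero {k : ℤ} {G : ℍ → ℂ} (hG : G ∈ MF (Gamma0 p) k) :
    Tendsto G atImInfty (𝓝 (qCoeff G 0)) := by
  obtain ⟨g, rfl⟩ := Fermat.Agent.S20.C0h516.mem_MF_iff_exists.mp hG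
  have h1 := one_mem_strictPeriods_Gamma0' p
  have hanal := ModularFormClass.analyticAt_cuspFunction_zero g one_pos h1
  have hper := SlashInvariantFormClass.periodic_comp_ofComplex g h1
  have hval : qCoeff (⇑g) 0 = cuspFunction 1 (⇑g) 0 := by
    rw [qCoeff, UpperHalfPlane.qExpansion_coeff]
    simp
  rw [hval]
  have h2 : Tendsto (fun τ : ℍ => cuspFunction 1 (⇑g) (Function.Periodic.qParam 1 (τ : ℂ)))
      atImInfty (𝓝 (cuspFunction 1 (⇑g) 0)) :=
    hanal.continuousAt.tendsto.comp (UpperHalfPlane.qParam_tendsto_atImInfty one_pos)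
  refine h2.congr fun τ => ?_
  exact UpperHalfPlane.eq_cuspFunction τ one_ne_zero hper

theorem isZeroAtImInfty_of_qCoeff_zero {k : ℤ} {G : ℍ → ℂ} (hG : G ∈ MF (Gamma0 p) k)
    (h0 : qCoeff G 0 = 0) : IsZeroAtImInfty G := by
  have h := tendsto_qCoeff_zero p hG
  rwa [h0] at h

lemma conjST_eq_smul (k : ℤ) (F : ℍ → ℂ) (x : ZMod p) :
    conjST p k F x = ((p : ℂ) ^ (1 - k)) • ((hat p k F) ∣[k] heckeMatrix p x.val) := by
  have hp' : (p : ℂ) ≠ 0 := by exact_mod_cast prime_ne_zero' p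
  rw [hat_slash_heckeMatrix, smul_smul, ← zpow_add₀ hp']
  simp [conjST]

lemma isZero_slash_heckeMatrix {k : ℤ} {f : ℍ → ℂ} (hf : IsZeroAtImInfty f) (j : ℕ) :
    IsZeroAtImInfty (f ∣[k] heckeMatrix p j) := by
  have hp0 := prime_ne_zero' p
  have h1 : Tendsto (fun τ : ℍ => heckeMatrix p j • τ) atImInfty atImInfty :=
    tendsto_smul_atImInfty (by simp [val_heckeMatrix hp0])
  have h2 : Tendsto (fun τ : ℍ => (p : ℂ)⁻¹ * f (heckeMatrix p j • τ)) atImInfty (𝓝 0) := by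
    have := (hf.comp h1).const_mul ((p : ℂ)⁻¹)
    simpa using this
  refine h2.congr fun τ => ?_
  rw [slash_heckeMatrix_apply k hp0]

/-- Two cusps: vanishing at `∞` of `F` and of `F^` makes `F` a cusp form. -/
theorem mem_SF_of_qCoeff_zero {k : ℤ} {F : ℍ → ℂ} (hF : F ∈ MF (Gamma0 p) k)
    (h0 : qCoeff F 0 = 0) (h0' : qCoeff (hat p k F) 0 = 0) : F ∈ SF (Gamma0 p) k := by
  have hz : IsZeroAtImInfty F := isZeroAtImInfty_of_qCoeff_zero p hF h0
  have hz' : IsZeroAtImInfty (hat p k F) :=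
    isZeroAtImInfty_of_qCoeff_zero p (hat_mem_MF p hF) h0'
  refine ⟨hF.1, hF.2.1, fun γ => ?_⟩
  by_cases hc : ((γ 1 0 : ℤ) : ZMod p) = 0
  · rw [slash_eq_self_of_dvd hF.2.1 γ hc]
    exact hz
  · rw [slash_eq_conjST hF.2.1 γ ((((γ 1 0 : ℤ) : ZMod p))⁻¹ * ((γ 1 1 : ℤ) : ZMod p))
      (mul_inv_cancel_left₀ hc _), conjST_eq_smul]
    exact Filter.ZeroAtFilter.smul _ (isZero_slash_heckeMatrix p hz' _)

theorem qCoeff_heckeU_of_mem {k : ℤ} {G : ℍ → ℂ} (hG : G ∈ MF (Gamma0 p) k) (n : ℕ) :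
    qCoeff (heckeU k p G) n = qCoeff G (n * p) := by
  obtain ⟨g, rfl⟩ := Fermat.Agent.S20.C0h516.mem_MF_iff_exists.mp hG
  rw [ModularFormClass.qCoeff_heckeU g (one_mem_strictPeriods_Gamma0' p) (prime_ne_zero' p) n,
    coeffHeckeU_apply]

theorem cusp_crit : CuspCrit p := by
  intro G hG h0
  refine mem_SF_of_qCoeff_zero p hG h0 ?_
  rw [hat_two p hG, Fermat.Agent.S16.H556.qCoeff_smul (heckeU_two_mem p hG),
    qCoeff_heckeU_of_mem p hG, zero_mul, h0, mul_zero]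

end FRd

end Fermat.Agent.S16.H428
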