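import Fermat.Agent.S16.Interface
import Fermat.Agent.S16.H428.FRd

/-!
# S16 WP FR (helper428): the 21 statements of section FR of the skeleton, verbatim

Statements copied verbatim from `origin/helper556:Fermat/Agent/S16/Skeleton.lean` (section FR);
proofs are the theorems of the same names in `Fermat.Agent.S16.H428` (files `FRa` .. `FRd`).
-/

set_option autoImplicit false

noncomputable section

namespace Fermat.Agent.S16.H428.SkelFR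

open UpperHalfPlane ModularForm CongruenceSubgroup MatrixGroups ModularFormClass EisensteinSeries
open Fermat.Agent.S20 (MF SF)
open scoped Manifold

local notation "Δ" => ModularForm.discriminant

section FR

variable (p : ℕ) [Fact p.Prime]

theorem hat_apply (k : ℤ) (F : ℍ → ℂ) (z : ℍ) :
    hat p k F z = (z : ℂ) ^ (-k) * F (frickeGL p • z) :=
  Fermat.Agent.S16.H428.hat_apply p k F z

theorem coe_fricke_smul (z : ℍ) : ((frickeGL p • z : ℍ) : ℂ) = -1 / ((p : ℂ) * z) :=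
  Fermat.Agent.S16.H428.coe_fricke_smul p z

theorem hat_add (k : ℤ) (F G : ℍ → ℂ) : hat p k (F + G) = hat p k F + hat p k G :=
  Fermat.Agent.S16.H428.hat_add p k F G

theorem hat_smul (k : ℤ) (c : ℂ) (F : ℍ → ℂ) : hat p k (c • F) = c • hat p k F :=
  Fermat.Agent.S16.H428.hat_smul p k c F

theorem hat_mul (k₁ k₂ : ℤ) (F₁ F₂ : ℍ → ℂ) :
    hat p (k₁ + k₂) (F₁ * F₂) = hat p k₁ F₁ * hat p k₂ F₂ :=
  Fermat.Agent.S16.H428.hat_mul p k₁ k₂ F₁ F₂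

theorem hat_pow (k : ℤ) (n : ℕ) (F : ℍ → ℂ) : hat p (n * k) (F ^ n) = hat p k F ^ n :=
  Fermat.Agent.S16.H428.hat_pow p k n F

theorem hat_hat {k : ℤ} (hk : Even k) (F : ℍ → ℂ) :
    hat p k (hat p k F) = ((p : ℂ) ^ k) • F :=
  Fermat.Agent.S16.H428.hat_hat p hk F

theorem hat_mem_MF {k : ℤ} {F : ℍ → ℂ} (hF : F ∈ MF (Gamma0 p) k) :
    hat p k F ∈ MF (Gamma0 p) k :=
  Fermat.Agent.S16.H428.hat_mem_MF p hF

theorem Vp_mem_MF {k : ℤ} {H : ℍ → ℂ} (hH : H ∈ MF ⊤ k) : Vp p H ∈ MF (Gamma0 p) k :=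
  Fermat.Agent.S16.H428.Vp_mem_MF p hH

theorem hat_levelOne {k : ℤ} {H : ℍ → ℂ} (hH : H ∈ MF ⊤ k) :
    hat p k H = ((p : ℂ) ^ k) • Vp p H :=
  Fermat.Agent.S16.H428.hat_levelOne p hH

theorem hat_Vp {k : ℤ} {H : ℍ → ℂ} (hH : H ∈ MF ⊤ k) : hat p k (Vp p H) = H :=
  Fermat.Agent.S16.H428.hat_Vp p hH

/-- `tr F = F + ∑_{j<p} F ∣[k] (S T^j)`. -/
theorem tr_eq_sum (k : ℤ) (F : ℍ → ℂ) :
    tr p k F = F + ∑ j ∈ Finset.range p, F ∣[k] (ModularGroup.S * ModularGroup.T ^ j) :=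
  Fermat.Agent.S16.H428.tr_eq_sum p k F

theorem tr_mem_MF {k : ℤ} {F : ℍ → ℂ} (hF : F ∈ MF (Gamma0 p) k) : tr p k F ∈ MF ⊤ k :=
  Fermat.Agent.S16.H428.tr_mem_MF p hF

theorem tr_mem_SF {k : ℤ} {F : ℍ → ℂ} (hF : F ∈ SF (Gamma0 p) k) : tr p k F ∈ SF ⊤ k :=
  Fermat.Agent.S16.H428.tr_mem_SF p hF

theorem tr_mul_levelOne {a : ℤ} (k : ℤ) {H : ℍ → ℂ} (hH : H ∈ MF ⊤ a) (F : ℍ → ℂ) :
    tr p (a + k) (H * F) = H * tr p k F :=
  Fermat.Agent.S16.H428.tr_mul_levelOne p k hH F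

theorem tr_levelOne {k : ℤ} {H : ℍ → ℂ} (hH : H ∈ MF ⊤ k) :
    tr p k H = ((p : ℂ) + 1) • H :=
  Fermat.Agent.S16.H428.tr_levelOne p hH

/-- Weight 2: `M₂(SL₂ℤ) = 0` forces `G^ = -p U_p G`. -/
theorem hat_two {G : ℍ → ℂ} (hG : G ∈ MF (Gamma0 p) 2) :
    hat p 2 G = (-(p : ℂ)) • heckeU 2 p G :=
  Fermat.Agent.S16.H428.hat_two p hG

theorem heckeU_two_mem {G : ℍ → ℂ} (hG : G ∈ MF (Gamma0 p) 2) :
    heckeU 2 p G ∈ MF (Gamma0 p) 2 :=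
  Fermat.Agent.S16.H428.heckeU_two_mem p hG

theorem heckeU_two_sq {G : ℍ → ℂ} (hG : G ∈ MF (Gamma0 p) 2) :
    heckeU 2 p (heckeU 2 p G) = G :=
  Fermat.Agent.S16.H428.heckeU_two_sq p hG

/-- Two cusps: vanishing at `∞` of `F` and of `F^` makes `F` a cusp form. -/
theorem mem_SF_of_qCoeff_zero {k : ℤ} {F : ℍ → ℂ} (hF : F ∈ MF (Gamma0 p) k)
    (h0 : qCoeff F 0 = 0) (h0' : qCoeff (hat p k F) 0 = 0) : F ∈ SF (Gamma0 p) k :=
  Fermat.Agent.S16.H428.mem_SF_of_qCoeff_zero p hF h0 h0'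

theorem cusp_crit : CuspCrit p :=
  Fermat.Agent.S16.H428.cusp_crit p

end FR

end Fermat.Agent.S16.H428.SkelFR
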